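import Fermat.Agent.S55.Coh.Arith

/-!
# S55 : the abstract arithmetic DATUM (interface between the formal layer A and the layers B, C, T, G)

`G` a group with levels `𝓛`, `χ : G →* (ZMod p)ˣ` (so `T = rhoChi χ` plays the role of `μ_p`),
`D v ≤ G` the decomposition groups.  All statements concern the modules `Fn π T`, `Fn π 𝔽_p`
for finite smooth TRANSITIVE `G`-sets (resp. `D v`-sets), i.e. "fields".
-/

set_option autoImplicit false

noncomputable section

namespace Fermat.Agent.S55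

variable (p : ℕ) [Fact p.Prime] {G : Type} [Group G] (𝓛 : Lvl G) (χ : G →* (ZMod p)ˣ)
  {Q : Type} (D : Q → Subgroup G)

/-- levels of `D v` -/
abbrev lv (v : Q) : Lvl ↥(D v) := 𝓛.comap (D v).subtype

/-- restriction of an action to `D v` -/
abbrev rv {A : Type*} [AddCommGroup A] (ρ : G →* AddMonoid.End A) (v : Q) :
    ↥(D v) →* AddMonoid.End A := ρ.comp (D v).subtype

/-- the arithmetic input of the duality theorem -/
structure Datum where
  /-- local invariants -/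
  t : ∀ v, H2 (lv 𝓛 D v) (rv D (rhoChi χ) v) →+ ZMod p
  /-- (LB) `dim H²(E, μ_p) = 1` and corestriction is an isomorphism -/
  lb : ∀ (v : Q) {Sg : Type} [Fintype Sg] (π : ↥(D v) →* Equiv.Perm Sg),
    SmoothSet π (lv 𝓛 D v) → IsTrans π →
    Function.Bijective fun x : H2 (lv 𝓛 D v) (Fn π (rv D (rhoChi χ) v)) =>
      t v (H2c (lv 𝓛 D v) (isHom_eps π (rv D (rhoChi χ) v)) x)
  /-- (Fin) a global class is locally trivial almost everywhere -/
  fin : ∀ {Sg : Type} [Fintype Sg] (π : G →* Equiv.Perm Sg), SmoothSet π 𝓛 → IsTrans π →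
    ∀ x : H2 𝓛 (Fn π (rhoChi χ)), {v | res2 𝓛 (Fn π (rhoChi χ)) (D v).subtype x ≠ 0}.Finite
  /-- (Hasse) -/
  hasse : ∀ {Sg : Type} [Fintype Sg] (π : G →* Equiv.Perm Sg), SmoothSet π 𝓛 → IsTrans π →
    ∀ x : H2 𝓛 (Fn π (rhoChi χ)), (∀ v, res2 𝓛 (Fn π (rhoChi χ)) (D v).subtype x = 0) → x = 0
  /-- (Rec) reciprocity -/
  recip : ∀ x : H2 𝓛 (rhoChi χ), ∑ᶠ v, t v (res2 𝓛 (rhoChi χ) (D v).subtype x) = 0
  /-- (Ex) existence of global classes with given local components of total invariant `0` -/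
  ex : ∀ {Sg : Type} [Fintype Sg] (π : G →* Equiv.Perm Sg), SmoothSet π 𝓛 → IsTrans π →
    ∀ y : ∀ v, H2 (lv 𝓛 D v) (rv D (Fn π (rhoChi χ)) v), {v | y v ≠ 0}.Finite →
      ∑ᶠ v, t v (H2c (lv 𝓛 D v) ((isHom_eps π (rhoChi χ)).res (D v).subtype) (y v)) = 0 →
      ∃ x : H2 𝓛 (Fn π (rhoChi χ)), ∀ v, res2 𝓛 (Fn π (rhoChi χ)) (D v).subtype x = y v
  /-- (Ш¹) a homomorphism `G_F → 𝔽_p` which is locally trivial everywhere is trivial -/
  sha1 : ∀ {Sg : Type} [Fintype Sg] (π : G →* Equiv.Perm Sg), SmoothSet π 𝓛 → IsTrans π →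
    ∀ x : H1 𝓛 (Fn π (rhoTriv G (ZMod p))),
      (∀ v, res1 𝓛 (Fn π (rhoTriv G (ZMod p))) (D v).subtype x = 0) → x = 0

variable {A : Type*} [AddCommGroup A] (ρ : G →* AddMonoid.End A)

/-- classes in `H¹` which are locally trivial at all `v` -/
def ShaA1 : AddSubgroup (H1 𝓛 ρ) where
  carrier := {x | ∀ v, res1 𝓛 ρ (D v).subtype x = 0}
  add_mem' := fun ha hb q => by rw [map_add, ha q, hb q, add_zero]
  zero_mem' := fun q => by rw [map_zero]
  neg_mem' := fun ha q => by rw [map_neg, ha q, neg_zero]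

/-- classes in `H²` which are locally trivial at all `v` -/
def ShaA2 : AddSubgroup (H2 𝓛 ρ) where
  carrier := {x | ∀ v, res2 𝓛 ρ (D v).subtype x = 0}
  add_mem' := fun ha hb q => by rw [map_add, ha q, hb q, add_zero]
  zero_mem' := fun q => by rw [map_zero]
  neg_mem' := fun ha q => by rw [map_neg, ha q, neg_zero]

end Fermat.Agent.S55
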